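import Fermat.Agent.S33.Soft.Main
import Fermat.Agent.S33.Good.Main
import Fermat.Agent.S33.Level.Ord

/-!
# S33 from `Crux`, `RIG`, `TORIC`
-/

set_option autoImplicit false

namespace Fermat.Agent.S33

open Fermat.Agent.ES Fermat.Agent.SS

variable {p : ℕ} {N : ℕ} [NeZero N] {S : Finset ℕ}
  {𝒪 : Type} [CommRing 𝒪] [IsDomain 𝒪] [IsDiscreteValuationRing 𝒪]
  [IsAdicComplete (IsLocalRing.maximalIdeal 𝒪) 𝒪]
  {θ : CuspForm.heckeAlgebra N 2 (↑S : Set ℕ) →+* IsLocalRing.ResidueField 𝒪}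
  {T : Type} [CommRing T] [IsLocalRing T] [IsNoetherianRing T]
  [IsAdicComplete (IsLocalRing.maximalIdeal T) T] [Algebra 𝒪 T] [IsLocalHom (algebraMap 𝒪 T)]
  [Module.Finite 𝒪 T] [Module.Free 𝒪 T]

theorem of_inputs
    (hcrux : ∀ (N ℓ m : ℕ) [NeZero N], ℓ.Prime → ¬ ℓ ∣ N → ¬ ℓ ∣ m → Crux N ℓ m)
    (hrig : ∀ (M p : ℕ) [NeZero M], p.Prime → p ≠ 2 → ¬ p ∣ M → Rig M p)
    (htoric : ∀ (M p : ℕ) [NeZero M] [NeZero p] (hp : p.Prime), p ≠ 2 → ¬ p ∣ M → Toric M p hp)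
    (hp : p.Prime) (hp2 : p ≠ 2) (hp𝒪 : (p : 𝒪) ∈ IsLocalRing.maximalIdeal 𝒪)
    (hN : p ∣ N ∧ ¬ p ^ 2 ∣ N)
    (hNS : ∀ q : ℕ, q.Prime → q ∣ N → q ∈ S)
    (H : CuspForm.HeckeGaloisRepDatum N (↑S : Set ℕ) 𝒪 θ T)
    (hres : (GaloisRepAdic.ofResidualGaloisRep H.ρ.residual).IsOrdinaryAt p) :
    H.ρ.IsOrdinaryAt p := by
  obtain ⟨⟨M, hM⟩, hN2⟩ := hN
  rw [mul_comm] at hM
  subst hM
  have hM0 : NeZero M := ⟨fun h => NeZero.ne (M * p) (by rw [h, zero_mul])⟩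
  have hp0 : NeZero p := ⟨hp.ne_zero⟩
  have hpM : ¬ p ∣ M := by
    rintro ⟨t, rfl⟩
    exact hN2 ⟨t, by ring⟩
  refine soft (fun n ℓ hℓ h => hcrux (M * p) ℓ (p ^ n) hℓ (fun h' => h (Dvd.dvd.mul_right h' _))
    (fun h' => h (Dvd.dvd.mul_left h' _))) hp hp2 hpM ?_ hp𝒪 hNS H hres
  exact ord_of_good_toric hp hpM (good M p hp hp2 hpM (hrig M p hp hp2 hpM))
    (htoric M p hp hp2 hpM)

end Fermat.Agent.S33
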