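import Fermat.Agent.SS.Formal.AL
import Fermat.Agent.SS.Formal.Norm
import Fermat.Agent.SS.Formal.Red

/-!
# S33 (ordinary at `p ∥ N`): shared definitions and the interface statements

Blueprint: board topic `S33`, posts #1305 (SOFT), #1322 (ORD, GOOD, calculus), #1327 (wild engine).

Level `N = M * p`, `p ∤ M`, `p` odd; `A` a valuation ring of `ℚ̄` over `p`; ALL geometric statements
are about `Kum _ p` (exponent `m = p` only).

* `CongOne A c x` : `x ≡ 1 mod c` for the Gauss valuation `v_∞` of `A((q))`  (`c ∈ A`);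
* `Deep A c x`    : a nonzero constant times `x` is `≡ 1 mod c`;
* `DeepCl A c ξ`  : the class `ξ ∈ Kum N m` has a representative which is `Deep A c`;
* `InK1 A ξ`      : `ξ` has a representative which is constant mod `v_∞` (kernel of the reduction);
* `Rig`, `OmegaG`, `Toric`, `Good`, `Ord` : the statements of the blueprint.
-/

set_option autoImplicit false

open AlgebraicCurve ModularCurve

namespace Fermat.Agent.S33

open Fermat.Agent.ES Fermat.Agent.SS

noncomputable section

/-- `x ≡ 1 mod c` for the Gauss valuation of `A((q))` (quotient form). -/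
def CongOne (A : ValuationSubring Qb) (c : A) (x : LaurentSeries Qb) : Prop :=
  ∃ y₁ y₂ y₃ : LaurentSeries A, coeffMap (resA A) y₂ ≠ 0 ∧
    x * coeffMap A.subtype y₂ = coeffMap A.subtype y₁ ∧ y₁ - y₂ = HahnSeries.C c * y₃

/-- a nonzero constant times `x` is `≡ 1 mod c`. -/
def Deep (A : ValuationSubring Qb) (c : A) (x : LaurentSeries Qb) : Prop :=
  ∃ a : Qb, a ≠ 0 ∧ CongOne A c (cst a * x)

/-- the class `ξ` has a representative which is `≡ const mod c`. -/
def DeepCl {N m : ℕ} (A : ValuationSubring Qb) (c : A) (ξ : Kum N m) : Prop :=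
  ∃ u : Dm N m, Kum.mk u = ξ ∧ Deep A c (((u : (FF N)ˣ) : FF N) : LaurentSeries Qb)

/-- the class `ξ` has a representative which is constant modulo `v_∞`. -/
def InK1 {N m : ℕ} (A : ValuationSubring Qb) (ξ : Kum N m) : Prop :=
  ∃ u : Dm N m, Kum.mk u = ξ ∧ RedConst A ((u : (FF N)ˣ) : FF N)

/-- the reduction of (a constant times) a representative of `ξ` is a `p`-th power in `k((q))`. -/
def RedPow {N m : ℕ} (A : ValuationSubring Qb) (p : ℕ) (ξ : Kum N m) : Prop :=
  ∃ (u : Dm N m) (a : Qb) (r : LaurentSeries (kA A)), Kum.mk u = ξ ∧ a ≠ 0 ∧ r ≠ 0 ∧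
    RedTo A (cst a * (((u : (FF N)ˣ) : FF N) : LaurentSeries Qb)) (r ^ p)

/-- `σ` acts nontrivially on `μ_p`. -/
def OmegaNe (p : ℕ) (σ : GQ) : Prop := ∃ ζ : Qb, ζ ^ p = 1 ∧ σ ζ ≠ ζ

/-- **RIG** (good reduction): a class of `Kum M p` which is `≡ const mod p²` is trivial.
(`S33.GKw` + the good reduction package of `Crux`.) -/
def Rig (M p : ℕ) : Prop :=
  ∀ A : ValuationSubring Qb, A.LiesOverPrime p → ∀ z : Kum M p, DeepCl A ((p : A) ^ 2) z → z = 0

/-- **OMEGA, good reduction**: inertia acts through the cyclotomic character on the classes of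
`Kum M p` which are `≡ const mod (ζ_p - 1) ^ p` (depth `≥ p / (p - 1)`).
(`Wild.theoremG2p` in the smooth case.) -/
def OmegaG (M p : ℕ) : Prop :=
  ∀ A : ValuationSubring Qb, A.LiesOverPrime p →
    ∀ σ ∈ A.inertiaSubgroupIn ℚ, ∀ e : ℕ, (∀ ζ : Qb, ζ ^ p = 1 → σ ζ = ζ ^ e) →
    ∀ ζ : A, IsPrimitiveRoot ζ p →
    ∀ z : Kum M p, DeepCl A ((ζ - 1) ^ p) z → galKum M p σ z = e • z

/-- **TORIC**: inertia acts through the cyclotomic character on the classes of `Kum (M p) p` which
are `≡ const mod p²` for both Gauss valuations `v_∞` and `v_0 = v_∞ ∘ w`. -/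
def Toric (M p : ℕ) [NeZero M] [NeZero p] (hp : p.Prime) : Prop :=
  ∀ A : ValuationSubring Qb, A.LiesOverPrime p →
    ∀ (w : FF (M * p) →ₐ[Qb] FF (M * p)) (hw : IsAL M p w),
    ∀ σ ∈ A.inertiaSubgroupIn ℚ, ∀ e : ℕ, (∀ ζ : Qb, ζ ^ p = 1 → σ ζ = ζ ^ e) →
    ∀ x : Kum (M * p) p, DeepCl A ((p : A) ^ 2) x → DeepCl A ((p : A) ^ 2) (wKum hw hp p x) →
      galKum (M * p) p σ x = e • x

/-- **GOOD** (good reduction): no nonzero class in the kernel of the reduction is fixed by an
element of inertia which acts nontrivially on `μ_p`. -/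
def Good (M p : ℕ) : Prop :=
  ∀ A : ValuationSubring Qb, A.LiesOverPrime p →
    ∀ σ ∈ A.inertiaSubgroupIn ℚ, OmegaNe p σ →
    ∀ z : Kum M p, RedPow A p z → galKum M p σ z = z → z = 0

/-- **ORD**: the same at level `M p` for the classes with trivial reduction on both components. -/
def Ord (M p : ℕ) [NeZero M] [NeZero p] (hp : p.Prime) : Prop :=
  ∀ A : ValuationSubring Qb, A.LiesOverPrime p →
    ∀ (w : FF (M * p) →ₐ[Qb] FF (M * p)) (hw : IsAL M p w),
    ∀ σ ∈ A.inertiaSubgroupIn ℚ, OmegaNe p σ →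
    ∀ x : Kum (M * p) p, InK1 A x → InK1 A (wKum hw hp p x) → galKum (M * p) p σ x = x → x = 0

end

end Fermat.Agent.S33
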